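import Mathlib

/-!
# PROJECT H (S17), seam S-10: the abstract final step (B.16 of the master text)

A commutative additive group with a function `q` that is bounded below, satisfies the
parallelogram law up to a constant, has the Northcott property, and such that `Γ / 2Γ` is
finite, is finitely generated.  This is Mathlib's `AddCommGroup.fg_of_descent'` applied to
`h := q + C0`.
-/

set_option autoImplicit false

namespace Fermat.Agent.S17.Final.Abstract

/-- B.16: descent from an approximately quadratic, bounded below, Northcott function. -/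
theorem fg_of_approx_quadratic {Γ : Type*} [AddCommGroup Γ] (q : Γ → ℝ) (C0 C1 : ℝ)
    (hlow : ∀ x, -C0 ≤ q x)
    (hpar : ∀ x y, |q (x + y) + q (x - y) - 2 * q x - 2 * q y| ≤ C1)
    (hfin : ∀ T : ℝ, {x : Γ | q x ≤ T}.Finite)
    (hidx : (nsmulAddMonoidHom (α := Γ) 2).range.FiniteIndex) : AddGroup.FG Γ := by
  let h : Γ → ℝ := fun x => q x + C0
  have hN : Northcott h := by
    refine ⟨fun b => ?_⟩
    refine (hfin (b - C0)).subset ?_
    intro x hx
    have hx' : q x + C0 ≤ b := hx
    show q x ≤ b - C0
    linarith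
  have H2 : ∀ x, 0 ≤ h x := fun x => by
    have := hlow x
    simp only [h]
    linarith
  have H3 : ∀ x y, |h (x + y) + h (x - y) - 2 * (h x + h y)| ≤ C1 + 2 * |C0| := by
    intro x y
    have e : h (x + y) + h (x - y) - 2 * (h x + h y)
        = (q (x + y) + q (x - y) - 2 * q x - 2 * q y) + (-(2 * C0)) := by
      simp only [h]; ring
    rw [e]
    refine (abs_add_le _ _).trans ?_
    have h2 : |-(2 * C0)| = 2 * |C0| := by
      rw [abs_neg, abs_mul]; norm_num
    rw [h2]
    have := hpar x y
    linarith
  exact AddCommGroup.fg_of_descent' (h := h) hidx H2 H3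

/-- the same with the finiteness hypothesis in the form used by the weak Mordell-Weil slice:
the hypothesis is about `2 • ·` as a map. -/
theorem fg_of_approx_quadratic' {Γ : Type*} [AddCommGroup Γ] (q : Γ → ℝ)
    (hlow : ∃ C0 : ℝ, ∀ x, -C0 ≤ q x)
    (hpar : ∃ C1 : ℝ, ∀ x y, |q (x + y) + q (x - y) - 2 * q x - 2 * q y| ≤ C1)
    (hfin : ∀ T : ℝ, {x : Γ | q x ≤ T}.Finite)
    (hidx : (nsmulAddMonoidHom (α := Γ) 2).range.FiniteIndex) : AddGroup.FG Γ := by
  obtain ⟨C0, h0⟩ := hlow
  obtain ⟨C1, h1⟩ := hpar
  exact fg_of_approx_quadratic q C0 C1 h0 h1 hfin hidx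

/-- a trivial group is finitely generated (the genus zero case) -/
theorem fg_of_subsingleton {Γ : Type*} [AddCommGroup Γ] [Subsingleton Γ] : AddGroup.FG Γ := by
  infer_instance

end Fermat.Agent.S17.Final.Abstract
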