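import Mathlib
import Fermat.Agent.S17.WeakMW
import Fermat.Agent.S17.FinExp.Main
import Fermat.Agent.S17.Final.Abstract

/-!
# PROJECT H (S17), seam S-10, concrete side: Mordell–Weil for `J₀(N)(ℚ)` from a height

`Γ := J₀(N)(ℚ̄)^{G_ℚ}`.  Inputs:

* `hdiv` : every element of `J₀(N)(ℚ̄)` is divisible by `2` (slice (I));
* a function `q : Γ → ℝ` which is bounded below, satisfies the parallelogram law up to a
  constant and has the Northcott property (Parts A and B).

Output: `Γ` is finitely generated.  The weak Mordell–Weil theorem `Γ / 2Γ` finite is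
`WeakMW.finiteIndex_range_nsmul` (slice (II)) fed with `FinExp.Main.finExp` (slice (F)); the
descent is `Final.Abstract.fg_of_approx_quadratic'` (B.16).
-/

set_option autoImplicit false

noncomputable section

namespace Fermat.Agent.S17.Final.FromHeight

open ModularCurve AlgebraicCurve ModularCurve.JZero

local notation "Kb" => AlgebraicClosure ℚ
local notation "GQ" => (AlgebraicClosure ℚ) ≃ₐ[ℚ] (AlgebraicClosure ℚ)

variable (N : ℕ) [NeZero N]

/-- slice (F) in the literal shape of the hypothesis `hF` of `WeakMW.finiteIndex_range_nsmul` -/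
theorem finExp_all {m : ℕ} (hm : m ≠ 0) (E₀ : IntermediateField ℚ Kb)
    (hE₀ : FiniteDimensional ℚ E₀) : WeakMW.FinExp E₀ m {p : ℕ | p ∣ m * N} :=
  FinExp.Main.finExp E₀ hE₀ hm (NeZero.ne N)

/-- **weak Mordell–Weil for `J₀(N)(ℚ)`** : `Γ / mΓ` is finite, from `m`-divisibility of
`J₀(N)(ℚ̄)`. -/
theorem finiteIndex_range_nsmul {m : ℕ} (hm : m ≠ 0)
    (hdiv : ∀ x : JZero N, ∃ y : JZero N, m • y = x) :
    (nsmulAddMonoidHom (α := ↥(FixedPoints.addSubgroup GQ (JZero N))) m).range.FiniteIndex :=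
  WeakMW.finiteIndex_range_nsmul N hm (fun x _ => hdiv x) (finExp_all N hm)

/-- **Mordell–Weil for `J₀(N)(ℚ)`** from `2`-divisibility of `J₀(N)(ℚ̄)` and an approximately
quadratic, bounded below, Northcott function on `J₀(N)(ℚ)`. -/
theorem fg_of_height (hdiv : ∀ x : JZero N, ∃ y : JZero N, 2 • y = x)
    (q : ↥(FixedPoints.addSubgroup GQ (JZero N)) → ℝ)
    (hlow : ∃ C0 : ℝ, ∀ x, -C0 ≤ q x)
    (hpar : ∃ C1 : ℝ, ∀ x y, |q (x + y) + q (x - y) - 2 * q x - 2 * q y| ≤ C1)
    (hfin : ∀ T : ℝ, {x : ↥(FixedPoints.addSubgroup GQ (JZero N)) | q x ≤ T}.Finite) :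
    AddGroup.FG ↥(FixedPoints.addSubgroup GQ (JZero N)) :=
  Abstract.fg_of_approx_quadratic' q hlow hpar hfin
    (finiteIndex_range_nsmul N two_ne_zero hdiv)

end Fermat.Agent.S17.Final.FromHeight
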