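/-
PROJECT H (S17), helper7: THE FINAL ASSEMBLY, parametrised by the deliverable of Parts A + B.

`HeightPackage N g hR` is LITERALLY what `Pos/Main` has to deliver for `g ≥ 1`: a function
`q : Γ → ℝ` on `Γ = J₀(N)(ℚ̄)^{G_ℚ}` which is bounded below, satisfies the parallelogram law up
to a constant and has the Northcott property.  Then `fg_of_heightPackage` closes the frozen
statement S17 verbatim, using

* the genus split `GenusZero.genus_zero_or_pos` (helper11),
* slice (I) `Div.exists_nsmul_eq` (helper26 / helper22 / helper8),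
* slices (II) + (F) + B.16 through `Final.FromHeight.fg_of_height` (helper22).
-/
import Mathlib
import Fermat.Agent.S17.Final.FromHeight
import Fermat.Agent.S17.GenusZero
import Fermat.Agent.S17.Div.Final

set_option autoImplicit false

noncomputable section

namespace Fermat.Agent.S17.Final.Assemble

open ModularCurve AlgebraicCurve ModularCurve.JZero

local notation "Kb" => AlgebraicClosure ℚ
local notation "GQ" => (AlgebraicClosure ℚ) ≃ₐ[ℚ] (AlgebraicClosure ℚ)

/-- the deliverable of Parts A and B (for a genus `g ≥ 1` attached to `ℚ̄(X₀(N))` by Riemann's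
theorem): an approximately quadratic, bounded below, Northcott function on `J₀(N)(ℚ)` -/
def HeightPackage (N : ℕ) [NeZero N] : Prop :=
  ∃ q : ↥(FixedPoints.addSubgroup GQ (JZero N)) → ℝ,
    (∃ C0 : ℝ, ∀ x, -C0 ≤ q x) ∧
    (∃ C1 : ℝ, ∀ x y, |q (x + y) + q (x - y) - 2 * q x - 2 * q y| ≤ C1) ∧
    ∀ T : ℝ, {x : ↥(FixedPoints.addSubgroup GQ (JZero N)) | q x ≤ T}.Finite

/-- **Mordell–Weil for `J₀(N)(ℚ)`** from the height package in positive genus. -/
theorem fg_of_heightPackage (N : ℕ) [NeZero N]
    (hpos : ∀ g : ℕ, 1 ≤ g →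
      Fermat.Agent.S18.NonSpecial.RiemannHyp Kb (modularFunctionFieldBar N) g →
      HeightPackage N) :
    AddGroup.FG ↥(FixedPoints.addSubgroup GQ (JZero N)) := by
  rcases Fermat.Agent.S17.GenusZero.genus_zero_or_pos N with h0 | ⟨g, hg, hR, -⟩
  · exact Fermat.Agent.S17.GenusZero.fg_of_genus_zero N h0
  · obtain ⟨q, hlow, hpar, hfin⟩ := hpos g hg hR
    exact Fermat.Agent.S17.Final.FromHeight.fg_of_height N
      (fun x => Fermat.Agent.S17.Div.exists_nsmul_eq N 2 two_ne_zero x) q hlow hpar hfin

end Fermat.Agent.S17.Final.Assemble
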